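import Fermat.Agent.RelPic.Basic
import Mathlib.RingTheory.Smooth.Basic
import Mathlib.RingTheory.Spectrum.Prime.Topology

/-!
# Properties passed between the parts of the construction
-/

set_option autoImplicit false

noncomputable section

universe u

namespace Fermat.Agent.RelPic

variable {k : Type u} [Field k] {C : Model k}

/-- A base change of triples exists along every map of `k`-algebras. -/
def Model.HasBaseChange (C : Model k) : Prop :=
  ∀ (R R' : Type u) [CommRing R] [Algebra k R] [CommRing R'] [Algebra k R'] (φ : R →ₐ[k] R')
    (T : Triple C R), ∃ T' : Triple C R', Nonempty (Triple.BC φ T T')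

/-- Every degree zero bundle over a field lies in some chart. -/
def Model.HasCoverage (C : Model k) (e : C.Pt) : Prop :=
  ∀ (K : Type u) [Field K] [Algebra k K] (T : Triple C K), T.deg = 0 → ∃ i : Idx C, i.InChart T e

namespace Idx

variable (i : Idx C)

/-- The points of `Spec R` at which a triple lies in the chart. -/
def locus {R : Type u} [CommRing R] [Algebra k R] (T : Triple C R) (e : C.Pt) :
    Set (PrimeSpectrum R) :=
  {q | ∀ T' : Triple C q.asIdeal.ResidueField,
    Nonempty (Triple.BC (IsScalarTower.toAlgHom k R q.asIdeal.ResidueField) T T') →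
      i.InChart T' e}

/-- The chart conditions are fibrewise and define an open locus. -/
structure IsOpenCondition (e : C.Pt) : Prop where
  isOpen_locus : ∀ (R : Type u) [CommRing R] [Algebra k R] (T : Triple C R), IsOpen (i.locus T e)
  bc : ∀ (R R' : Type u) [CommRing R] [Algebra k R] [CommRing R'] [Algebra k R'] (φ : R →ₐ[k] R')
    (T : Triple C R) (T' : Triple C R'),
    Nonempty (Triple.BC φ T T') → i.InChart T e → i.InChart T' e
  of_locus : ∀ (R : Type u) [CommRing R] [Algebra k R] (T : Triple C R),
    T.IsRigid e → i.locus T e = Set.univ → i.InChart T e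
  of_field : ∀ (K K' : Type u) [Field K] [Algebra k K] [Field K'] [Algebra k K'] (φ : K →ₐ[k] K')
    (T : Triple C K) (T' : Triple C K'),
    Nonempty (Triple.BC φ T T') → i.InChart T' e → i.InChart T e
  isDegZero : ∀ (R : Type u) [CommRing R] [Algebra k R] (T : Triple C R),
    i.InChart T e → T.IsDegZero

/-- The ring of an affine chart, with its universal triple. -/
structure ChartData (e : C.Pt) where
  S : Type u
  [instRing : CommRing S]
  [instAlg : Algebra k S]
  finitePresentation : Algebra.FinitePresentation k S
  U : Triple C S
  rigid : U.IsRigid e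
  inChart : i.InChart U e
  univ : ∀ (R : Type u) [CommRing R] [Algebra k R] (T : Triple C R),
    T.IsRigid e → i.InChart T e → ∃! φ : S →ₐ[k] R, Nonempty (Triple.BC φ U T)

attribute [instance] ChartData.instRing ChartData.instAlg

end Idx

end Fermat.Agent.RelPic
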