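import Mathlib.RingTheory.PicardGroup
import Mathlib.RingTheory.DedekindDomain.Basic
import Mathlib.RingTheory.TensorProduct.Maps
import Mathlib.Algebra.Polynomial.AlgebraMap
import Mathlib.FieldTheory.IsAlgClosed.Basic
import Mathlib.LinearAlgebra.Dimension.Finrank

/-!
# Two-chart models of curves and line bundles over affine bases

A curve over `k` is described by two coordinate rings inside its function field, finite free over
`k[x]` and `k[1/x]`, with common localisation `A₀`.  A line bundle over `Spec R` is an invertible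
module over `R ⊗ A₀` with two lattices (`Triple`).  Cohomology is then `p ⊓ m` and `M / (p ⊔ m)`.
-/

set_option autoImplicit false

noncomputable section

universe u

open scoped TensorProduct
open Polynomial

namespace Fermat.Agent.RelPic

/-- Two affine charts of a curve, glued along the locus where `x` is a unit. -/
structure Model (k : Type u) [Field k] where
  F : Type u
  [instField : Field F]
  [instAlgebra : Algebra k F]
  x : F
  x_ne : x ≠ 0
  Ap : Subalgebra k F
  Am : Subalgebra k F
  A₀ : Subalgebra k F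
  x_mem : x ∈ Ap
  x_inv_mem : x⁻¹ ∈ Am
  Ap_le : Ap ≤ A₀
  Am_le : Am ≤ A₀
  exists_mul_pow_mem : ∀ a ∈ A₀, ∃ n : ℕ, a * x ^ n ∈ Ap
  exists_mul_inv_pow_mem : ∀ a ∈ A₀, ∃ n : ℕ, a * (x⁻¹) ^ n ∈ Am
  d : ℕ
  d_pos : 0 < d
  free_p : ∃ b : Fin d → Ap, Function.Bijective
    fun f : Fin d → k[X] => ∑ i, aeval (⟨x, x_mem⟩ : Ap) (f i) * b i
  free_m : ∃ b : Fin d → Am, Function.Bijective
    fun f : Fin d → k[X] => ∑ i, aeval (⟨x⁻¹, x_inv_mem⟩ : Am) (f i) * b i
  inf_eq : Ap ⊓ Am = ⊥

attribute [instance] Model.instField Model.instAlgebra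

namespace Model

variable {k : Type u} [Field k] (C : Model k)

/-- A rational point in the overlap of the two charts. -/
abbrev Pt : Type u := C.A₀ →ₐ[k] k

/-- Functions on the overlap over `Spec R`. -/
abbrev A (R : Type u) [CommRing R] [Algebra k R] : Type u := R ⊗[k] C.A₀

section
variable (R : Type u) [CommRing R] [Algebra k R]

/-- Functions on the first chart over `Spec R`, inside those on the overlap. -/
def Cp : Subalgebra R (C.A R) :=
  (Algebra.TensorProduct.map (AlgHom.id R R) (Subalgebra.inclusion C.Ap_le)).range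

/-- Functions on the second chart over `Spec R`, inside those on the overlap. -/
def Cm : Subalgebra R (C.A R) :=
  (Algebra.TensorProduct.map (AlgHom.id R R) (Subalgebra.inclusion C.Am_le)).range

/-- The coordinate on the overlap over `Spec R`. -/
def X₀ : C.A R := 1 ⊗ₜ ⟨C.x, C.Ap_le C.x_mem⟩

/-- The inverse coordinate on the overlap over `Spec R`. -/
def Y₀ : C.A R := 1 ⊗ₜ ⟨C.x⁻¹, C.Am_le C.x_inv_mem⟩

/-- Evaluation at a rational point. -/
def evalR (Q : C.Pt) : C.A R →ₐ[R] R :=
  (Algebra.TensorProduct.rid k R R).toAlgHom.comp (Algebra.TensorProduct.map (AlgHom.id R R) Q)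

end

/-- Change of base ring of functions on the overlap. -/
def mapA {R R' : Type u} [CommRing R] [Algebra k R] [CommRing R'] [Algebra k R'] (φ : R →ₐ[k] R') :
    C.A R →ₐ[k] C.A R' :=
  Algebra.TensorProduct.map φ (AlgHom.id k C.A₀)

end Model

/-- The smoothness properties of a model that enter the construction. -/
structure Model.Regular {k : Type u} [Field k] (C : Model k) : Prop where
  dedekind_p : ∀ (K : Type u) [Field K] [Algebra k K] [IsAlgClosed K], IsDedekindDomain (C.Cp K)
  dedekind_m : ∀ (K : Type u) [Field K] [Algebra k K] [IsAlgClosed K], IsDedekindDomain (C.Cm K)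
  diag_p : Module.Invertible (C.Ap ⊗[k] C.Ap)
    ↥(RingHom.ker (Algebra.TensorProduct.lmul' k : C.Ap ⊗[k] C.Ap →ₐ[k] C.Ap))
  diag_m : Module.Invertible (C.Am ⊗[k] C.Am)
    ↥(RingHom.ker (Algebra.TensorProduct.lmul' k : C.Am ⊗[k] C.Am →ₐ[k] C.Am))
  finiteType_p : Algebra.FiniteType k C.Ap
  finiteType_m : Algebra.FiniteType k C.Am

variable {k : Type u} [Field k]

/-- A line bundle on the curve over `Spec R`. -/
structure Triple (C : Model k) (R : Type u) [CommRing R] [Algebra k R] where
  M : Type u
  [instAdd : AddCommGroup M]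
  [instModA : Module (C.A R) M]
  [instModR : Module R M]
  [instTower : IsScalarTower R (C.A R) M]
  p : Submodule (C.Cp R) M
  m : Submodule (C.Cm R) M
  inv_p : Module.Invertible (C.Cp R) p
  inv_m : Module.Invertible (C.Cm R) m
  exists_pow_smul_mem_p : ∀ v : M, ∃ n : ℕ, C.X₀ R ^ n • v ∈ p
  exists_pow_smul_mem_m : ∀ v : M, ∃ n : ℕ, C.Y₀ R ^ n • v ∈ m

attribute [instance] Triple.instAdd Triple.instModA Triple.instModR Triple.instTower

/-- Euler characteristic of a pair of lattices. -/
def chiOf {K : Type u} [Field K] {V : Type u} [AddCommGroup V] [Module K V]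
    (p m : Submodule K V) : ℤ :=
  (Module.finrank K ↥(p ⊓ m) : ℤ) - (Module.finrank K (V ⧸ (p ⊔ m)) : ℤ)

/-- Euler characteristic of the structure sheaf. -/
def Model.chi₀ (C : Model k) : ℤ :=
  chiOf (K := k) (Subalgebra.toSubmodule (C.Cp k)) (Subalgebra.toSubmodule (C.Cm k))

namespace Triple

variable {C : Model k} {R : Type u} [CommRing R] [Algebra k R] (T : Triple C R)

/-- The first lattice as an `R`-module. -/
abbrev pR : Submodule R T.M := T.p.restrictScalars R

/-- The second lattice as an `R`-module. -/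
abbrev mR : Submodule R T.M := T.m.restrictScalars R

/-- Isomorphism of triples. -/
structure Equiv (T T' : Triple C R) where
  toEquiv : T.M ≃ₗ[C.A R] T'.M
  mem_p : ∀ v, v ∈ T.p ↔ toEquiv v ∈ T'.p
  mem_m : ∀ v, v ∈ T.m ↔ toEquiv v ∈ T'.m

/-- `T'` is the base change of `T` along `φ`.  As all three modules are invertible, it is enough
that the images span. -/
structure BC {R' : Type u} [CommRing R'] [Algebra k R'] (φ : R →ₐ[k] R') (T : Triple C R)
    (T' : Triple C R') where
  toFun : T.M →+ T'.M
  map_smul : ∀ (a : C.A R) (v : T.M), toFun (a • v) = C.mapA φ a • toFun v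
  map_p : ∀ v ∈ T.p, toFun v ∈ T'.p
  map_m : ∀ v ∈ T.m, toFun v ∈ T'.m
  span_p : T'.pR ≤ Submodule.span R' (toFun '' (T.p : Set T.M))
  span_m : T'.mR ≤ Submodule.span R' (toFun '' (T.m : Set T.M))

/-- The global sections. -/
abbrev H0 : Submodule R T.M := T.pR ⊓ T.mR

/-- The first cohomology. -/
abbrev H1 : Type u := T.M ⧸ (T.pR ⊔ T.mR)

/-- Sections vanishing at the `R`-valued point `q` of the overlap. -/
def vanishAt (q : C.A R →ₐ[R] R) : Submodule R T.M :=
  (RingHom.ker q • (⊤ : Submodule (C.A R) T.M)).restrictScalars R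

/-- The triple is trivial along the section `e`. -/
def IsRigid (e : C.Pt) : Prop :=
  ∃ r : T.M →ₗ[R] R,
    (∀ (a : C.A R) (v : T.M), r (a • v) = C.evalR R e a * r v) ∧ Function.Surjective r

/-- Degree over a field. -/
def deg {K : Type u} [Field K] [Algebra k K] (T : Triple C K) : ℤ :=
  chiOf T.pR T.mR - C.chi₀

/-- Degree zero on all fibres. -/
def IsDegZero : Prop :=
  ∀ (K : Type u) [Field K] [Algebra k K] (φ : R →ₐ[k] K) (T' : Triple C K),
    Nonempty (BC φ T T') → T'.deg = 0

end Triple

/-- An index of an affine chart of the Jacobian. -/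
structure Idx (C : Model k) where
  m : ℕ
  Q : List C.Pt
  P : Fin C.d → C.Pt
  P_injective : Function.Injective P
  hn : (Q.length : ℤ) = C.chi₀ + C.d * m

namespace Idx

variable {C : Model k} (i : Idx C) {R : Type u} [CommRing R] [Algebra k R] (T : Triple C R)

/-- Sections on the overlap vanishing on the points `Q`. -/
def sub : Submodule R T.M :=
  (((i.Q.map fun Q => RingHom.ker (C.evalR R Q)).prod) •
    (⊤ : Submodule (C.A R) T.M)).restrictScalars R

/-- The second lattice, twisted by `j` times the zero divisor of `1/x`. -/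
def mShift (j : ℕ) : Submodule R T.M :=
  T.mR.map ((LinearMap.lsmul (C.A R) T.M (C.X₀ R ^ j)).restrictScalars R)

/-- First lattice of the twisted bundle. -/
def twistP : Submodule R T.M := i.sub T ⊓ T.pR

/-- Second lattice of the twisted bundle, with `j` further twists. -/
def twistM (j : ℕ) : Submodule R T.M := i.sub T ⊓ mShift T (i.m + j)

/-- The sections of the twisted bundle after one more twist. -/
def sections : Submodule R T.M := i.twistP T ⊓ i.twistM T 1

/-- The twisted bundle has no cohomology, and the frame given by the points is nondegenerate. -/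
def InChart (e : C.Pt) : Prop :=
  i.sub T ≤ i.twistP T ⊔ i.twistM T 0 ∧
  ∃ s : Fin C.d → T.M,
    (∀ j, s j ∈ i.sections T) ∧
    (∀ v ∈ i.sections T, ∃! f : Fin C.d → R, ∑ j, f j • s j = v) ∧
    (∀ j l, j ≠ l → s j ∈ T.vanishAt (C.evalR R (i.P l))) ∧
    (∀ j, T.vanishAt (C.evalR R (i.P j)) ⊔ Submodule.span R {s j} = ⊤) ∧
    (∀ j, T.vanishAt (C.evalR R e) ⊔ Submodule.span R {s j} = ⊤)

end Idx

end Fermat.Agent.RelPic
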