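import Fermat.Agent.RelPic.Chart.Data
import Fermat.Agent.RelPic.Complex.BaseChange
import Fermat.Agent.RelPic.Curve.Regular
import Fermat.Agent.RelPic.Cut.Main
import Fermat.Agent.RelPic.Functor.Represent
import Fermat.Agent.RelPic.Props.Main

/-!
# The Jacobian of a pointed smooth proper curve
-/

set_option autoImplicit false
set_option linter.style.haveILetI false

noncomputable section

universe u

open CategoryTheory CategoryTheory.Limits AlgebraicGeometry AlgebraicGeometry.RelPicard NeronModelInfra
  GoodReductionJacobian

namespace Fermat.Agent.RelPic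

variable {k : Type u} [Field k] {C : Scheme.{u}} {c : C ⟶ Spec (CommRingCat.of k)}
  {ε : SchemeHomOver (𝟙 (Spec (CommRingCat.of k))) c}

/-- The inputs of the construction combine into the Jacobian. -/
theorem exists_jacobian_of_inputs [IsProper c] [SmoothOfRelativeDimension 1 c]
    [GeometricallyIntegral c] (G : GeomModel c ε) (hC : G.model.Regular) (hD : DictProps G)
    (htw : ∀ i : Idx G.model, i.HasTwist) (hopen : ∀ i : Idx G.model, i.IsOpenCondition G.e)
    (hcov : G.model.HasCoverage G.e) (hlift : G.model.HasLifting G.e)
    (hval : G.model.HasValuativeUniqueness G.e) (hu : UnitDegZero G) (S : ShiftData G) {n : ℕ}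
    (hn : HasChains S n) :
    ∃ D : RelativePic0Designation k c,
      Nonempty (RepresentsRelSubPic c ε (algEquivZeroCut c ε) D) ∧
        Smooth D.toBase ∧ IsProper D.toBase ∧ GeometricallyConnected D.toBase := by
  have hbc : G.model.HasBaseChange := G.model.hasBaseChange
  haveI : Smooth c := SmoothOfRelativeDimension.smooth 1 c
  haveI : GeometricallyConnected c := geometricallyConnected_of_geometricallyIntegral c
  obtain ⟨D, ⟨h⟩, hcover⟩ := exists_representsRelSubPic hD hopen hcov
    (fun i => i.nonempty_chartData G.e hC hbc (htw i)) hu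
  have hP : IsDegreeCut G (degZeroCut hu) := fun _ _ => Iff.rfl
  have hcut : IsDegreeCut G (algEquivZeroCut c ε) :=
    isDegreeCut_algEquivZeroCut (h := h) hD hP S hu.deg hn
  haveI : Smooth D.toBase := smooth_of_representable hbc hopen hlift hcover
  haveI : IsSeparated D.toBase := isSeparated_of_representable hD hval (fun _ _ hM => hM) h
  obtain ⟨f, hfs, hf⟩ := exists_surjective_selfProd (h := h) hD hP S hn
  haveI := hfs
  obtain ⟨hproper, hconn⟩ := isProper_and_geometricallyConnected (c := c) f hf
  exact ⟨D, ⟨representsCongr (fun t M => ((hcut t M).trans (hP t M).symm).symm) h⟩, inferInstance,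
    hproper, hconn⟩

end Fermat.Agent.RelPic
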