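import Mathlib
import Fermat.Prelude.Def_AlgebraicGeometry_RelativePicardFunctor
import Fermat.Agent.RelPic.Basic

/-!
# A two-chart model attached to a pointed curve
-/

set_option autoImplicit false

noncomputable section

universe u

open CategoryTheory CategoryTheory.Limits AlgebraicGeometry NeronModelInfra

namespace Fermat.Agent.RelPic

/-- The structure map of the spectrum of a `k`-algebra. -/
abbrev str (k : Type u) [Field k] (R : Type u) [CommRing R] [Algebra k R] :
    Spec (CommRingCat.of R) ⟶ Spec (CommRingCat.of k) :=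
  Spec.map (CommRingCat.ofHom (algebraMap k R))

variable {k : Type u} [Field k]

/-- The morphism of spectra of a morphism of `k`-algebras. -/
abbrev specHom {R S : Type u} [CommRing R] [Algebra k R] [CommRing S] [Algebra k S]
    (φ : R →ₐ[k] S) : Spec (CommRingCat.of S) ⟶ Spec (CommRingCat.of R) :=
  Spec.map (CommRingCat.ofHom φ.toRingHom)

/-- A two-chart model of a curve together with its chart maps and the marked point. -/
structure GeomModel {C : Scheme.{u}} (c : C ⟶ Spec (CommRingCat.of k))
    (ε : SchemeHomOver (𝟙 (Spec (CommRingCat.of k))) c) where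
  model : Model k
  ιp : Spec (CommRingCat.of model.Ap) ⟶ C
  ιm : Spec (CommRingCat.of model.Am) ⟶ C
  ι₀ : Spec (CommRingCat.of model.A₀) ⟶ C
  [openp : IsOpenImmersion ιp]
  [openm : IsOpenImmersion ιm]
  [open₀ : IsOpenImmersion ι₀]
  ιp_c : ιp ≫ c = str k model.Ap
  ιm_c : ιm ≫ c = str k model.Am
  ι₀_c : ι₀ ≫ c = str k model.A₀
  incl_p : specHom (Subalgebra.inclusion model.Ap_le) ≫ ιp = ι₀
  incl_m : specHom (Subalgebra.inclusion model.Am_le) ≫ ιm = ι₀
  cover : ιp.opensRange ⊔ ιm.opensRange = ⊤
  inter : ιp.opensRange ⊓ ιm.opensRange = ι₀.opensRange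
  e : model.Pt
  e_spec : specHom (R := model.A₀) (S := k) e ≫ ι₀ = ε.1

attribute [instance] GeomModel.openp GeomModel.openm GeomModel.open₀

end Fermat.Agent.RelPic
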